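import Mathlib
import Fermat.Agent.LT.H556.A0
import Fermat.Agent.LT.T2.Spec
import Fermat.Agent.LT.T2.H472.LocCont

/-!
# Row LT, tower T2, sub-leaf T2.07.16 (helper770): component calculus on `GL₂(𝔸_K)` -- OFF-MAIN

Vocabulary: `LT/H556/A0.lean` (helper556), `LT/T2/Spec.lean` (helper130, v2), component ring
homomorphisms `cInf472`, `cFin472`, `cC472` of `LT/T2/H472/LocCont.lean` (helper472); byte-identical
copies.  Nothing is assumed.

* `infComp_mul770`, `finComp_mul770`, `infComp_one770`, `finComp_one770`: the components are
  multiplicative.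
* `ext770`: an element of `GL₂(𝔸_K)` is determined by its components
  (`infComp w`, `finComp v`); `eq_of_local770`: two elements supported at the infinite place `w`
  with the same component at `w` are equal.
* `isLocalAtInf_mul770`, `isLocalAtInf_one770`.
* `exists_archPosScalar770`: the positive real scalar `r` at ONE infinite place exists as an
  element of `GL₂(𝔸_K)` (`extensionEmbedding` is onto `ℝ`, resp. `ℂ`).
* `diagPos_central770`: the elements of `Z⁺` (`T2.IsDiagPosScalar`) are central.
* `cusp_diagPos_inv770`: a cusp function (in fact any function right invariant under the positive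
  scalars at each infinite place) is right invariant under `Z⁺`.
-/

set_option autoImplicit false
set_option linter.unusedSectionVars false

open IsDedekindDomain NumberField

noncomputable section

namespace Fermat.Agent.LT.T2.H770

open Fermat.Agent.LT.H556.A0 Fermat.Agent.LT.T2 Fermat.Agent.LT.T2.H472

variable {K : Type} [Field K] [NumberField K]

attribute [local instance] Classical.propDecidable

/-! ## 1. Multiplicativity of the components -/

theorem infComp_mul770 (w : InfinitePlace K) (g h : G K) :
    infComp w (g * h) = infComp w g * infComp w h := by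
  rw [infComp_eq472, infComp_eq472, infComp_eq472, Units.val_mul, map_mul]

theorem infComp_one770 (w : InfinitePlace K) : infComp w (1 : G K) = 1 := by
  rw [infComp_eq472, Units.val_one, map_one]

theorem finComp_mul770 (v : HeightOneSpectrum (𝓞 K)) (g h : G K) :
    finComp v (g * h) = finComp v g * finComp v h := by
  rw [finComp_eq472, finComp_eq472, finComp_eq472, Units.val_mul, map_mul]

theorem finComp_one770 (v : HeightOneSpectrum (𝓞 K)) : finComp v (1 : G K) = 1 := by
  rw [finComp_eq472, Units.val_one, map_one]

theorem infComp_mul_inv770 (w : InfinitePlace K) (g : G K) :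
    infComp w g * infComp w g⁻¹ = 1 := by
  rw [← infComp_mul770, mul_inv_cancel, infComp_one770]

theorem infComp_inv_mul770 (w : InfinitePlace K) (g : G K) :
    infComp w g⁻¹ * infComp w g = 1 := by
  rw [← infComp_mul770, inv_mul_cancel, infComp_one770]

/-- The complex component of an element which is trivial at `w`. -/
theorem infComp_of_trivAtInf770 {w : InfinitePlace K} {g : G K} (h : TrivAtInf w g) :
    infComp w g = 1 := by
  rw [infComp_eq472]
  have h1 := (trivAtInf_iff472 w g).1 h
  have h2 : (cC472 w).mapMatrix (g : Matrix (Fin 2) (Fin 2) (Adl K))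
      = (InfinitePlace.Completion.extensionEmbedding w).mapMatrix
        ((cInf472 w).mapMatrix (g : Matrix (Fin 2) (Fin 2) (Adl K))) := by
    ext i j
    rfl
  rw [h2, h1, map_one]

theorem trivAtInf_of_infComp770 {w : InfinitePlace K} {g : G K} (h : infComp w g = 1) :
    TrivAtInf w g := by
  intro i j
  apply (InfinitePlace.Completion.extensionEmbedding w).injective
  have h1 : InfinitePlace.Completion.extensionEmbedding w
      (((g : Matrix (Fin 2) (Fin 2) (Adl K)) i j).1 w) = (1 : Matrix (Fin 2) (Fin 2) ℂ) i j :=
    congrFun (congrFun h i) j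
  rw [h1]
  by_cases hij : i = j
  · subst hij
    rw [Matrix.one_apply_eq, Matrix.one_apply_eq, map_one]
  · rw [Matrix.one_apply_ne hij, Matrix.one_apply_ne hij, map_zero]

/-! ## 2. Extensionality -/

/-- An element of `GL₂(𝔸_K)` is determined by its components. -/
theorem ext770 {g h : G K} (hinf : ∀ w : InfinitePlace K, infComp w g = infComp w h)
    (hfin : ∀ v : HeightOneSpectrum (𝓞 K), finComp v g = finComp v h) : g = h := by
  apply Units.ext
  refine Matrix.ext fun i j => ?_
  apply Prod.ext
  · funext w
    apply (InfinitePlace.Completion.extensionEmbedding w).injective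
    exact congrFun (congrFun (hinf w) i) j
  · refine FiniteAdeleRing.ext K fun v => ?_
    exact congrFun (congrFun (hfin v) i) j

theorem isLocalAtInf_one770 (w : InfinitePlace K) : IsLocalAtInf w (1 : G K) :=
  ⟨fun w' _ => trivAtInf_of_infComp770 (infComp_one770 w'), fun v => finComp_one770 v⟩

theorem isLocalAtInf_mul770 {w : InfinitePlace K} {g h : G K} (hg : IsLocalAtInf w g)
    (hh : IsLocalAtInf w h) : IsLocalAtInf w (g * h) := by
  refine ⟨fun w' hw' => trivAtInf_of_infComp770 ?_, fun v => ?_⟩
  · rw [infComp_mul770, infComp_of_trivAtInf770 (hg.1 w' hw'),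
      infComp_of_trivAtInf770 (hh.1 w' hw'), one_mul]
  · show finComp v (g * h) = 1
    rw [finComp_mul770, show finComp v g = 1 from hg.2 v, show finComp v h = 1 from hh.2 v,
      one_mul]

/-- Two elements supported at `w` with the same component at `w` are equal. -/
theorem eq_of_local770 {w : InfinitePlace K} {g h : G K} (hg : IsLocalAtInf w g)
    (hh : IsLocalAtInf w h) (hc : infComp w g = infComp w h) : g = h := by
  refine ext770 (fun w' => ?_) fun v => ?_
  · by_cases hw' : w' = w
    · subst hw'
      exact hc
    · rw [infComp_of_trivAtInf770 (hg.1 w' hw'), infComp_of_trivAtInf770 (hh.1 w' hw')]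
  · rw [show finComp v g = 1 from hg.2 v, show finComp v h = 1 from hh.2 v]

/-! ## 3. The positive real scalars at one infinite place -/

/-- Every real number is a value of `extensionEmbedding w`. -/
theorem exists_real_completion770 (w : InfinitePlace K) (r : ℝ) :
    ∃ x : w.Completion, InfinitePlace.Completion.extensionEmbedding w x = (r : ℂ) := by
  rcases w.isReal_or_isComplex with hw | hw
  · obtain ⟨x, hx⟩ := InfinitePlace.Completion.surjective_extensionEmbeddingOfIsReal hw r
    refine ⟨x, ?_⟩
    rw [← InfinitePlace.Completion.extensionEmbeddingOfIsReal_apply hw, hx]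
  · exact InfinitePlace.Completion.surjective_extensionEmbedding_of_isComplex hw r

/-- The adele which is `x` at the infinite place `w` and `1` at every other place. -/
def cAd770 (w : InfinitePlace K) (x : w.Completion) : Adl K :=
  ((Pi.mulSingle w x : InfiniteAdeleRing K), (1 : FiniteAdeleRing (𝓞 K) K))

theorem cAd770_mul (w : InfinitePlace K) (x y : w.Completion) :
    cAd770 w x * cAd770 w y = cAd770 w (x * y) := by
  apply Prod.ext
  · show Pi.mulSingle w x * Pi.mulSingle w y = Pi.mulSingle w (x * y)
    rw [← Pi.mulSingle_mul]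
  · show (1 : FiniteAdeleRing (𝓞 K) K) * 1 = 1
    rw [one_mul]

theorem cAd770_one (w : InfinitePlace K) : cAd770 w 1 = 1 := by
  apply Prod.ext
  · show Pi.mulSingle w (1 : w.Completion) = 1
    rw [Pi.mulSingle_one]
  · rfl

/-- The idele which is `x ≠ 0` at the infinite place `w` and `1` at every other place. -/
def cId770 (w : InfinitePlace K) (x : w.Completion) (hx : x ≠ 0) : (Adl K)ˣ where
  val := cAd770 w x
  inv := cAd770 w x⁻¹
  val_inv := by rw [cAd770_mul, mul_inv_cancel₀ hx, cAd770_one]
  inv_val := by rw [cAd770_mul, inv_mul_cancel₀ hx, cAd770_one]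

/-- The scalar matrix `x` at the infinite place `w`, identity elsewhere. -/
def zSc770 (w : InfinitePlace K) (x : w.Completion) (hx : x ≠ 0) : G K :=
  Units.map (Matrix.scalar (Fin 2) : Adl K →+* Matrix (Fin 2) (Fin 2) (Adl K)).toMonoidHom
    (cId770 w x hx)

theorem zSc770_apply (w : InfinitePlace K) (x : w.Completion) (hx : x ≠ 0) (i j : Fin 2) :
    ((zSc770 w x hx : G K) : Matrix (Fin 2) (Fin 2) (Adl K)) i j
      = if i = j then cAd770 w x else 0 := by
  have h : ((zSc770 w x hx : G K) : Matrix (Fin 2) (Fin 2) (Adl K))
      = Matrix.diagonal (fun _ => cAd770 w x) := rfl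
  rw [h, Matrix.diagonal_apply]

theorem isLocalAtInf_zSc770 (w : InfinitePlace K) (x : w.Completion) (hx : x ≠ 0) :
    IsLocalAtInf w (zSc770 w x hx) := by
  refine ⟨fun w' hw' i j => ?_, fun v => ?_⟩
  · rw [zSc770_apply]
    by_cases hij : i = j
    · rw [if_pos hij, hij, Matrix.one_apply_eq]
      show (Pi.mulSingle w x : InfiniteAdeleRing K) w' = 1
      rw [Pi.mulSingle_eq_of_ne hw']
    · rw [if_neg hij, Matrix.one_apply_ne hij]
      rfl
  · show finComp v (zSc770 w x hx) = 1
    refine Matrix.ext fun i j => ?_
    show (((zSc770 w x hx : G K) : Matrix (Fin 2) (Fin 2) (Adl K)) i j).2 v = _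
    rw [zSc770_apply]
    by_cases hij : i = j
    · rw [if_pos hij, hij, Matrix.one_apply_eq]
      rfl
    · rw [if_neg hij, Matrix.one_apply_ne hij]
      rfl

theorem infComp_zSc770 (w : InfinitePlace K) (x : w.Completion) (hx : x ≠ 0) :
    infComp w (zSc770 w x hx)
      = Matrix.diagonal (fun _ => InfinitePlace.Completion.extensionEmbedding w x) := by
  refine Matrix.ext fun i j => ?_
  show InfinitePlace.Completion.extensionEmbedding w
    ((((zSc770 w x hx : G K) : Matrix (Fin 2) (Fin 2) (Adl K)) i j).1 w) = _
  rw [zSc770_apply, Matrix.diagonal_apply]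
  by_cases hij : i = j
  · rw [if_pos hij, if_pos hij]
    show InfinitePlace.Completion.extensionEmbedding w ((Pi.mulSingle w x : InfiniteAdeleRing K) w)
      = _
    rw [Pi.mulSingle_eq_same]
  · rw [if_neg hij, if_neg hij]
    show InfinitePlace.Completion.extensionEmbedding w (0 : w.Completion) = 0
    exact map_zero _

/-- The positive real scalar `r` at the infinite place `w` exists in `GL₂(𝔸_K)`. -/
theorem exists_archPosScalar770 (w : InfinitePlace K) (r : ℝ) (hr : 0 < r) :
    ∃ s : G K, IsArchPosScalar w s ∧ infComp w s = Matrix.diagonal (fun _ => (r : ℂ)) := by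
  obtain ⟨x, hx⟩ := exists_real_completion770 w r
  have hx0 : x ≠ 0 := by
    rintro rfl
    rw [map_zero] at hx
    have : (r : ℂ) ≠ 0 := by exact_mod_cast hr.ne'
    exact this hx.symm
  have hc : infComp w (zSc770 w x hx0) = Matrix.diagonal (fun _ => (r : ℂ)) := by
    rw [infComp_zSc770, hx]
  exact ⟨zSc770 w x hx0, ⟨isLocalAtInf_zSc770 w x hx0, r, hr, hc⟩, hc⟩

/-! ## 4. The group `Z⁺` -/

theorem diagonal_const_mul770 (c : ℂ) (M : Matrix (Fin 2) (Fin 2) ℂ) :
    Matrix.diagonal (fun _ => c) * M = M * Matrix.diagonal (fun _ => c) := by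
  ext i j
  rw [Matrix.diagonal_mul, Matrix.mul_diagonal, mul_comm]

/-- The elements of `Z⁺` are central. -/
theorem diagPos_central770 {z : G K} (hz : IsDiagPosScalar z) (g : G K) : g * z = z * g := by
  obtain ⟨hfin, r, -, hr⟩ := hz
  refine ext770 (fun w => ?_) fun v => ?_
  · rw [infComp_mul770, infComp_mul770, hr w, diagonal_const_mul770]
  · rw [finComp_mul770, finComp_mul770, show finComp v z = 1 from hfin v, one_mul, mul_one]

/-- A function which is right invariant under the positive scalars at each infinite place is
right invariant under `Z⁺`. -/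
theorem diagPos_inv_of_arch770 {φ : G K → ℂ}
    (hφ : ∀ (w : InfinitePlace K) (z : G K), IsArchPosScalar w z → ∀ g : G K, φ (g * z) = φ g)
    {z : G K} (hz : IsDiagPosScalar z) (g : G K) : φ (g * z) = φ g := by
  classical
  obtain ⟨hfin, r, hr0, hr⟩ := hz
  have key : ∀ S : Finset (InfinitePlace K), ∀ z' : G K,
      (∀ v : HeightOneSpectrum (𝓞 K), finComp v z' = 1) →
      (∀ w ∈ S, infComp w z' = Matrix.diagonal (fun _ => (r : ℂ))) →
      (∀ w ∉ S, infComp w z' = 1) → ∀ g : G K, φ (g * z') = φ g := by
    intro S
    induction S using Finset.induction_on with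
    | empty =>
      intro z' h1 _ h3 g
      have : z' = 1 := by
        refine ext770 (fun w => ?_) fun v => ?_
        · rw [h3 w (Finset.notMem_empty w), infComp_one770]
        · rw [h1 v, finComp_one770]
      rw [this, mul_one]
    | insert w₀ S hw₀ ih =>
      intro z' h1 h2 h3 g
      obtain ⟨s, hs, hsc⟩ := exists_archPosScalar770 w₀ r hr0
      have hsl : IsLocalAtInf w₀ s := hs.1
      have hsl' : IsLocalAtInf w₀ s⁻¹ := isLocalAtInf_inv472 hsl
      have hz'' : φ (g * (z' * s⁻¹)) = φ g := by
        refine ih (z' * s⁻¹) (fun v => ?_) (fun w hw => ?_) (fun w hw => ?_) g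
        · rw [finComp_mul770, h1 v, show finComp v s⁻¹ = 1 from hsl'.2 v, one_mul]
        · have hne : w ≠ w₀ := fun h => hw₀ (h ▸ hw)
          rw [infComp_mul770, h2 w (Finset.mem_insert_of_mem hw),
            infComp_of_trivAtInf770 (hsl'.1 w hne), mul_one]
        · by_cases hne : w = w₀
          · subst hne
            rw [infComp_mul770, h2 w (Finset.mem_insert_self w S), ← hsc, infComp_mul_inv770]
          · have hw' : w ∉ insert w₀ S := by
              rw [Finset.mem_insert]
              rintro (h | h)
              · exact hne h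
              · exact hw h
            rw [infComp_mul770, h3 w hw', infComp_of_trivAtInf770 (hsl'.1 w hne), one_mul]
      have e : g * z' = g * (z' * s⁻¹) * s := by group
      rw [e, hφ w₀ s hs, hz'']
  exact key Finset.univ z hfin (fun w _ => hr w) (fun w hw => absurd (Finset.mem_univ w) hw) g

/-- A cusp function is right invariant under `Z⁺`. -/
theorem cusp_diagPos_inv770 {𝔫 : Ideal (𝓞 K)} {φ : G K → ℂ} (hφ : IsCuspFn 𝔫 φ) {z : G K}
    (hz : IsDiagPosScalar z) (g : G K) : φ (g * z) = φ g :=
  diagPos_inv_of_arch770 hφ.arch_scalar hz g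

end Fermat.Agent.LT.T2.H770

end
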