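import Fermat.Agent.LT.T2.H429.OpsSpec
import Fermat.Agent.LT.T2.H472.LocContLeaf
import Fermat.Agent.LT.T2.H546.MeanLin
import Fermat.Agent.LT.T2.H770.Comp

/-!
# Row LT, tower T2, sub-leaf T2.07.16 `SubMeanAdj429` (helper770) -- OFF-MAIN

Sphere and circle means are self-adjoint for the Petersson pairing on the cusp functions.

Delivered: `subMeanAdj770 : SubTransl429 K → SubMeanAdj429 K` (input = the KEY LEMMA T2.07.00
only; T2.07.30 is closed by `subLocCont472` of helper472), and the form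
`subMeanAdj_of770 : SubTransl429 K → SubLocCont429 K → SubMeanAdj429 K`.

Proof.  `B(h) = ∫_D φ(g h) conj ψ(g) dμ(g)`.
* KEY LEMMA applied to `Φ(g) = φ(g h₂⁻¹ h₁) conj ψ(g)` (continuous, bounded, left invariant,
  `Z⁺`-invariant because `Z⁺` is central and the cusp functions are `Z⁺`-invariant, `Comp.lean`):
  `∫_D φ(g h₁) conj ψ(g h₂) = B(h₂⁻¹ h₁)` (`transl770`).
* Hence `B` is left and right invariant under the compact group at `w` (`B_left770`,
  `B_right770`), and `∫_D φ(g) conj ψ(g y) = B(y⁻¹)`.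
* For `y = k a` with `k` compact at `w`, `a` of component `torus d`: `B(y) = B(a)`,
  `B(y⁻¹) = B(a⁻¹)`, and `a⁻¹ = J a J⁻¹` with `J` of component `rotY π = [[0,-1],[1,0]]`
  (`torus d * rotY π * torus d = rotY π`), so `B(a⁻¹) = B(a)`: POINTWISE symmetry
  `∫_D φ(g y) conj ψ(g) = ∫_D φ(g) conj ψ(g y)` for every point `y` of the sphere (`pointwise770`).
  All the elements are taken from the parametrisation itself:
  `a = Y 0 0`, `k = Y α β * a⁻¹`, `J = Y 0 π * a⁻¹`.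
* Fubini on `D × [0,2π] × [0,π]` (finite measure, bounded continuous integrand):
  `mean_adj_abstract770`.
-/

set_option autoImplicit false
set_option linter.unusedSectionVars false

open IsDedekindDomain NumberField MeasureTheory
open Fermat.Agent.LT.H556.A0
open Fermat.Agent.LT.T2 Fermat.Agent.LT.T2.H429 Fermat.Agent.LT.T2.H472
open scoped ComplexConjugate

noncomputable section

namespace Fermat.Agent.LT.T2.H770

variable {K : Type} [Field K] [NumberField K]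

attribute [local instance] Fermat.Agent.LT.T2.borelG

/-! ## 1. The abstract Fubini argument -/

/-- If `∫_D φ(g y) conj ψ(g) = ∫_D φ(g) conj ψ(g y)` for every point `y = y p` of a continuous
family, then the mean over the family (finite measure `ν`, real bounded continuous weight `s`) is
self-adjoint on the bounded continuous functions. -/
theorem mean_adj_abstract770 {G P : Type*} [Group G] [TopologicalSpace G] [IsTopologicalGroup G]
    [MeasurableSpace G] [BorelSpace G] [TopologicalSpace P] [SecondCountableTopology P]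
    [MeasurableSpace P] [BorelSpace P] (μ : Measure G) (D : Set G) (hD : μ D < ⊤)
    (ν : Measure P) [IsFiniteMeasure ν] {φ ψ : G → ℂ} (hφ : Continuous φ) (hψ : Continuous ψ)
    {Cφ Cψ : ℝ} (hCφ : ∀ g, ‖φ g‖ ≤ Cφ) (hCψ : ∀ g, ‖ψ g‖ ≤ Cψ) {y : P → G} (hy : Continuous y)
    {s : P → ℝ} (hs : Continuous s) {Cs : ℝ} (hCs : ∀ p, |s p| ≤ Cs)
    (hpt : ∀ p, ∫ g in D, φ (g * y p) * conj (ψ g) ∂μ = ∫ g in D, φ g * conj (ψ (g * y p)) ∂μ) :
    ∫ g in D, (∫ p, φ (g * y p) * ((s p : ℝ) : ℂ) ∂ν) * conj (ψ g) ∂μ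
      = ∫ g in D, φ g * conj (∫ p, ψ (g * y p) * ((s p : ℝ) : ℂ) ∂ν) ∂μ := by
  have : IsFiniteMeasure (μ.restrict D) := ⟨by rw [Measure.restrict_apply_univ]; exact hD⟩
  have hCφ0 : 0 ≤ Cφ := (norm_nonneg _).trans (hCφ 1)
  have hCψ0 : 0 ≤ Cψ := (norm_nonneg _).trans (hCψ 1)
  have hmul : Continuous fun q : G × P => q.1 * y q.2 :=
    continuous_fst.mul (hy.comp continuous_snd)
  have hsC : Continuous fun q : G × P => ((s q.2 : ℝ) : ℂ) :=
    Complex.continuous_ofReal.comp (hs.comp continuous_snd)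
  -- the two integrands on `D × P`
  have hc1 : Continuous fun q : G × P => φ (q.1 * y q.2) * ((s q.2 : ℝ) : ℂ) * conj (ψ q.1) :=
    ((hφ.comp hmul).mul hsC).mul (Complex.continuous_conj.comp (hψ.comp continuous_fst))
  have hc2 : Continuous fun q : G × P => φ q.1 * conj (ψ (q.1 * y q.2) * ((s q.2 : ℝ) : ℂ)) :=
    (hφ.comp continuous_fst).mul (Complex.continuous_conj.comp ((hψ.comp hmul).mul hsC))
  have hb : ∀ p, ‖((s p : ℝ) : ℂ)‖ ≤ Cs := fun p => by
    rw [Complex.norm_real, Real.norm_eq_abs]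
    exact hCs p
  have hi1 : Integrable (Function.uncurry fun (g : G) (p : P) =>
      φ (g * y p) * ((s p : ℝ) : ℂ) * conj (ψ g)) ((μ.restrict D).prod ν) := by
    refine Integrable.of_bound hc1.aestronglyMeasurable (Cφ * Cs * Cψ)
      (Filter.Eventually.of_forall fun q => ?_)
    show ‖φ (q.1 * y q.2) * ((s q.2 : ℝ) : ℂ) * conj (ψ q.1)‖ ≤ _
    rw [norm_mul, norm_mul, RCLike.norm_conj]
    have h0 : 0 ≤ Cs := (norm_nonneg _).trans (hb q.2)
    exact mul_le_mul (mul_le_mul (hCφ _) (hb _) (norm_nonneg _) hCφ0) (hCψ _) (norm_nonneg _)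
      (mul_nonneg hCφ0 h0)
  have hi2 : Integrable (Function.uncurry fun (g : G) (p : P) =>
      φ g * conj (ψ (g * y p) * ((s p : ℝ) : ℂ))) ((μ.restrict D).prod ν) := by
    refine Integrable.of_bound hc2.aestronglyMeasurable (Cφ * (Cψ * Cs))
      (Filter.Eventually.of_forall fun q => ?_)
    show ‖φ q.1 * conj (ψ (q.1 * y q.2) * ((s q.2 : ℝ) : ℂ))‖ ≤ _
    rw [norm_mul, RCLike.norm_conj, norm_mul]
    have h0 : 0 ≤ Cs := (norm_nonneg _).trans (hb q.2)
    exact mul_le_mul (hCφ _) (mul_le_mul (hCψ _) (hb _) (norm_nonneg _) hCψ0)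
      (mul_nonneg (norm_nonneg _) (norm_nonneg _)) hCφ0
  calc ∫ g in D, (∫ p, φ (g * y p) * ((s p : ℝ) : ℂ) ∂ν) * conj (ψ g) ∂μ
      = ∫ g in D, ∫ p, φ (g * y p) * ((s p : ℝ) : ℂ) * conj (ψ g) ∂ν ∂μ := by
        congr 1
        funext g
        rw [integral_mul_const]
    _ = ∫ p, ∫ g in D, φ (g * y p) * ((s p : ℝ) : ℂ) * conj (ψ g) ∂μ ∂ν :=
        integral_integral_swap hi1
    _ = ∫ p, ((s p : ℝ) : ℂ) * ∫ g in D, φ (g * y p) * conj (ψ g) ∂μ ∂ν := by
        congr 1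
        funext p
        rw [← integral_const_mul]
        congr 1
        funext g
        ring
    _ = ∫ p, ((s p : ℝ) : ℂ) * ∫ g in D, φ g * conj (ψ (g * y p)) ∂μ ∂ν := by
        congr 1
        funext p
        rw [hpt p]
    _ = ∫ p, ∫ g in D, φ g * conj (ψ (g * y p) * ((s p : ℝ) : ℂ)) ∂μ ∂ν := by
        congr 1
        funext p
        rw [← integral_const_mul]
        congr 1
        funext g
        rw [map_mul, Complex.conj_ofReal]
        ring
    _ = ∫ g in D, ∫ p, φ g * conj (ψ (g * y p) * ((s p : ℝ) : ℂ)) ∂ν ∂μ :=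
        (integral_integral_swap hi2).symm
    _ = ∫ g in D, φ g * conj (∫ p, ψ (g * y p) * ((s p : ℝ) : ℂ) ∂ν) ∂μ := by
        congr 1
        funext g
        rw [integral_const_mul, integral_conj]

/-! ## 2. The matrices -/

theorem rotZ_zero770 : rotZ 0 = 1 := by
  unfold rotZ
  ext i j
  fin_cases i <;> fin_cases j <;> simp

theorem rotY_zero770 : rotY 0 = 1 := by
  unfold rotY
  ext i j
  fin_cases i <;> fin_cases j <;> simp

theorem rotY_pi770 : rotY Real.pi = !![0, -1; 1, 0] := by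
  unfold rotY
  ext i j
  fin_cases i <;> fin_cases j <;> simp

theorem diag_unitary770 {a b : ℂ} (ha : a * conj a = 1) (hb : b * conj b = 1) :
    (!![a, 0; 0, b] : Matrix (Fin 2) (Fin 2) ℂ)
      * (!![a, 0; 0, b] : Matrix (Fin 2) (Fin 2) ℂ).conjTranspose = 1 := by
  ext i j
  fin_cases i <;> fin_cases j <;>
    simp [Matrix.mul_apply, Fin.sum_univ_two, Matrix.conjTranspose_apply, ha, hb]

theorem rot_unitary770 {c s : ℂ} (hc : conj c = c) (hs : conj s = s) (h : c * c + s * s = 1) :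
    (!![c, -s; s, c] : Matrix (Fin 2) (Fin 2) ℂ)
      * (!![c, -s; s, c] : Matrix (Fin 2) (Fin 2) ℂ).conjTranspose = 1 := by
  ext i j
  fin_cases i <;> fin_cases j <;>
    simp [Matrix.mul_apply, Fin.sum_univ_two, Matrix.conjTranspose_apply, hc, hs]
  · linear_combination h
  · ring
  · ring
  · linear_combination h

theorem rotZ_unitary770 (α : ℝ) : rotZ α * (rotZ α).conjTranspose = 1 := by
  have h1 : conj (Complex.exp (Complex.I * ((α / 2 : ℝ) : ℂ)))
      = Complex.exp (-(Complex.I * ((α / 2 : ℝ) : ℂ))) := by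
    rw [← Complex.exp_conj, map_mul, Complex.conj_I, Complex.conj_ofReal, neg_mul]
  have h2 : conj (Complex.exp (-(Complex.I * ((α / 2 : ℝ) : ℂ))))
      = Complex.exp (Complex.I * ((α / 2 : ℝ) : ℂ)) := by
    rw [← Complex.exp_conj, map_neg, map_mul, Complex.conj_I, Complex.conj_ofReal, neg_mul,
      neg_neg]
  have h3 : Complex.exp (Complex.I * ((α / 2 : ℝ) : ℂ))
      * Complex.exp (-(Complex.I * ((α / 2 : ℝ) : ℂ))) = 1 := by
    rw [← Complex.exp_add, add_neg_cancel, Complex.exp_zero]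
  refine diag_unitary770 ?_ ?_
  · rw [h1, h3]
  · rw [h2, mul_comm, h3]

theorem cos_sq_add_sin_sq770 (x : ℝ) :
    ((Real.cos x : ℝ) : ℂ) * ((Real.cos x : ℝ) : ℂ)
      + ((Real.sin x : ℝ) : ℂ) * ((Real.sin x : ℝ) : ℂ) = 1 := by
  rw [← Complex.ofReal_mul, ← Complex.ofReal_mul, ← Complex.ofReal_add, ← sq, ← sq,
    Real.cos_sq_add_sin_sq, Complex.ofReal_one]

theorem rotY_unitary770 (β : ℝ) : rotY β * (rotY β).conjTranspose = 1 :=
  rot_unitary770 (Complex.conj_ofReal _) (Complex.conj_ofReal _) (cos_sq_add_sin_sq770 (β / 2))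

theorem rotY_det770 (β : ℝ) : (rotY β).det = 1 := by
  have h := cos_sq_add_sin_sq770 (β / 2)
  unfold rotY
  rw [Matrix.det_fin_two_of]
  linear_combination h

/-- A product of unitary matrices is unitary. -/
theorem unitary_mul770 {A B : Matrix (Fin 2) (Fin 2) ℂ} (hA : A * A.conjTranspose = 1)
    (hB : B * B.conjTranspose = 1) : (A * B) * (A * B).conjTranspose = 1 := by
  rw [Matrix.conjTranspose_mul, ← mul_assoc, mul_assoc A B, hB, mul_one, hA]

theorem diag_weyl770 {p q : ℂ} (h : p * q = 1) :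
    (!![p, 0; 0, q] : Matrix (Fin 2) (Fin 2) ℂ) * !![0, -1; 1, 0] * !![p, 0; 0, q]
      = !![0, -1; 1, 0] := by
  have h' : q * p = 1 := by rw [mul_comm, h]
  ext i j
  fin_cases i <;> fin_cases j <;> simp [Matrix.mul_apply, Fin.sum_univ_two, h, h']

theorem torus_rotY_pi770 (d : ℝ) : torus d * rotY Real.pi * torus d = rotY Real.pi := by
  have h1 : ((Real.exp (d / 2) : ℝ) : ℂ) * ((Real.exp (-(d / 2)) : ℝ) : ℂ) = 1 := by
    rw [← Complex.ofReal_mul, ← Real.exp_add, add_neg_cancel, Real.exp_zero, Complex.ofReal_one]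
  rw [rotY_pi770]
  exact diag_weyl770 h1

/-! ## 3. The pointwise symmetry -/

/-- `B(h) = ∫_D φ(g h) conj ψ(g) dμ(g)`. -/
def B770 (F : Frame K) (φ ψ : G K → ℂ) (h : G K) : ℂ :=
  ∫ g in F.D, φ (g * h) * conj (ψ g) ∂F.μ

/-- The KEY LEMMA on the cusp functions: `∫_D φ(g h₁) conj ψ(g h₂) = B(h₂⁻¹ h₁)`. -/
theorem transl770 (hT : SubTransl429 K) (h1 : T1.T1Out K) (F : Frame K) {𝔫 : Ideal (𝓞 K)}
    {φ ψ : G K → ℂ} (hφ : IsCuspFn 𝔫 φ) (hψ : IsCuspFn 𝔫 ψ) (h₁ h₂ : G K) :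
    ∫ g in F.D, φ (g * h₁) * conj (ψ (g * h₂)) ∂F.μ = B770 F φ ψ (h₂⁻¹ * h₁) := by
  obtain ⟨Cφ, hCφ⟩ := hφ.bdd
  obtain ⟨Cψ, hCψ⟩ := hψ.bdd
  have hcont : Continuous fun g : G K => φ (g * (h₂⁻¹ * h₁)) * conj (ψ g) :=
    (hφ.cont.comp (continuous_id.mul continuous_const)).mul
      (Complex.continuous_conj.comp hψ.cont)
  have hbdd : ∃ C : ℝ, ∀ g : G K, ‖φ (g * (h₂⁻¹ * h₁)) * conj (ψ g)‖ ≤ C := by
    refine ⟨Cφ * Cψ, fun g => ?_⟩
    rw [norm_mul, RCLike.norm_conj]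
    exact mul_le_mul (hCφ _) (hCψ _) (norm_nonneg _) ((norm_nonneg _).trans (hCφ 1))
  have hleft : ∀ (γ : GL (Fin 2) K) (g : G K),
      φ (T1.ratG K γ * g * (h₂⁻¹ * h₁)) * conj (ψ (T1.ratG K γ * g))
        = φ (g * (h₂⁻¹ * h₁)) * conj (ψ g) := by
    intro γ g
    rw [mul_assoc,
      show φ (T1.ratG K γ * (g * (h₂⁻¹ * h₁))) = φ (g * (h₂⁻¹ * h₁)) from hφ.left_inv γ _,
      show ψ (T1.ratG K γ * g) = ψ g from hψ.left_inv γ g]
  have hz : ∀ z : G K, IsDiagPosScalar z → ∀ g : G K,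
      φ (g * z * (h₂⁻¹ * h₁)) * conj (ψ (g * z)) = φ (g * (h₂⁻¹ * h₁)) * conj (ψ g) := by
    intro z hz g
    have e : g * z * (h₂⁻¹ * h₁) = g * (h₂⁻¹ * h₁) * z := by
      rw [mul_assoc, ← diagPos_central770 hz (h₂⁻¹ * h₁), ← mul_assoc]
    rw [e, cusp_diagPos_inv770 hφ hz, cusp_diagPos_inv770 hψ hz]
  have key := hT h1 F (fun g => φ (g * (h₂⁻¹ * h₁)) * conj (ψ g)) hcont hbdd hleft hz h₂
  unfold B770
  rw [← key]
  congr 1
  funext g
  show φ (g * h₁) * conj (ψ (g * h₂)) = φ (g * h₂ * (h₂⁻¹ * h₁)) * conj (ψ (g * h₂))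
  rw [show g * h₂ * (h₂⁻¹ * h₁) = g * h₁ by group]

/-- `B` is left invariant under the compact group at `w`. -/
theorem B_left770 (hT : SubTransl429 K) (h1 : T1.T1Out K) (F : Frame K) {𝔫 : Ideal (𝓞 K)}
    {φ ψ : G K → ℂ} (hφ : IsCuspFn 𝔫 φ) (hψ : IsCuspFn 𝔫 ψ) {w : InfinitePlace K} {k : G K}
    (hk : IsArchCompact w k) (h : G K) : B770 F φ ψ (k * h) = B770 F φ ψ h := by
  have key := transl770 hT h1 F hφ hψ h k⁻¹
  rw [inv_inv] at key
  rw [← key]
  unfold B770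
  congr 1
  funext g
  have e : ψ (g * k⁻¹ * k) = ψ (g * k⁻¹) := hψ.arch_compact w k hk (g * k⁻¹)
  rw [inv_mul_cancel_right] at e
  rw [← e]

/-- `B` is right invariant under the compact group at `w`. -/
theorem B_right770 (F : Frame K) {𝔫 : Ideal (𝓞 K)} {φ : G K → ℂ} (ψ : G K → ℂ)
    (hφ : IsCuspFn 𝔫 φ) {w : InfinitePlace K} {k : G K} (hk : IsArchCompact w k) (h : G K) :
    B770 F φ ψ (h * k⁻¹) = B770 F φ ψ h := by
  unfold B770
  congr 1
  funext g
  have e : φ (g * (h * k⁻¹) * k) = φ (g * (h * k⁻¹)) := hφ.arch_compact w k hk (g * (h * k⁻¹))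
  rw [← e, show g * (h * k⁻¹) * k = g * h by group]

/-- **Pointwise symmetry.**  `y = κ · torus d` at `w` with `κ` in the compact group, `a` and `j`
the elements of components `torus d`, `rotY π · torus d`:
`∫_D φ(g y) conj ψ(g) = ∫_D φ(g) conj ψ(g y)`. -/
theorem pointwise770 (hT : SubTransl429 K) (h1 : T1.T1Out K) (F : Frame K) {𝔫 : Ideal (𝓞 K)}
    {φ ψ : G K → ℂ} (hφ : IsCuspFn 𝔫 φ) (hψ : IsCuspFn 𝔫 ψ) {w : InfinitePlace K} {d : ℝ}
    {y a j : G K} {κ : Matrix (Fin 2) (Fin 2) ℂ} (hκ : κ * κ.conjTranspose = 1)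
    (hκdet : w.IsReal → κ.det = 1)
    (hy : IsLocalAtInf w y) (hyc : infComp w y = κ * torus d)
    (ha : IsLocalAtInf w a) (hac : infComp w a = torus d)
    (hj : IsLocalAtInf w j) (hjc : infComp w j = rotY Real.pi * torus d) :
    ∫ g in F.D, φ (g * y) * conj (ψ g) ∂F.μ = ∫ g in F.D, φ g * conj (ψ (g * y)) ∂F.μ := by
  have ha' : IsLocalAtInf w a⁻¹ := isLocalAtInf_inv472 ha
  have hta : torus d * infComp w a⁻¹ = 1 := by
    rw [← hac]
    exact infComp_mul_inv770 w a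
  have hkc : infComp w (y * a⁻¹) = κ := by
    rw [infComp_mul770, hyc, mul_assoc, hta, mul_one]
  have hk : IsArchCompact w (y * a⁻¹) :=
    ⟨isLocalAtInf_mul770 hy ha', by rw [hkc]; exact hκ, fun hw => by rw [hkc]; exact hκdet hw⟩
  have hJc : infComp w (j * a⁻¹) = rotY Real.pi := by
    rw [infComp_mul770, hjc, mul_assoc, hta, mul_one]
  have hJ : IsArchCompact w (j * a⁻¹) :=
    ⟨isLocalAtInf_mul770 hj ha', by rw [hJc]; exact rotY_unitary770 _,
      fun _ => by rw [hJc]; exact rotY_det770 _⟩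
  have haJa : a * (j * a⁻¹) * a = j * a⁻¹ := by
    apply eq_of_local770 (isLocalAtInf_mul770 (isLocalAtInf_mul770 ha hJ.1) ha) hJ.1
    rw [infComp_mul770, infComp_mul770, hJc, hac, torus_rotY_pi770]
  have hyk : y = (y * a⁻¹) * a := by group
  have hainv : a⁻¹ = (j * a⁻¹) * a * (j * a⁻¹)⁻¹ := by
    have h' : (j * a⁻¹)⁻¹ = (a * (j * a⁻¹) * a)⁻¹ := by rw [haJa]
    rw [h']
    group
  have e1 : B770 F φ ψ y = B770 F φ ψ a := by
    conv_lhs => rw [hyk]
    exact B_left770 hT h1 F hφ hψ hk a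
  have e2 : B770 F φ ψ y⁻¹ = B770 F φ ψ a⁻¹ := by
    have e : y⁻¹ = a⁻¹ * (y * a⁻¹)⁻¹ := by group
    rw [e]
    exact B_right770 F ψ hφ hk a⁻¹
  have e3 : B770 F φ ψ a⁻¹ = B770 F φ ψ a := by
    conv_lhs => rw [hainv]
    rw [B_right770 F ψ hφ hJ ((j * a⁻¹) * a), B_left770 hT h1 F hφ hψ hJ a]
  have e4 : ∫ g in F.D, φ g * conj (ψ (g * y)) ∂F.μ = B770 F φ ψ y⁻¹ := by
    have key := transl770 hT h1 F hφ hψ 1 y
    rw [mul_one] at key
    rw [← key]
    congr 1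
    funext g
    rw [mul_one]
  rw [e4, e2, e3, ← e1]
  rfl

/-! ## 4. The means as integrals over a finite measure -/

/-- The measure `dα dβ` on `[0, 2π] × [0, π]`. -/
def nuS770 : Measure (ℝ × ℝ) :=
  (volume.restrict (Set.Ioc (0 : ℝ) (2 * Real.pi))).prod (volume.restrict (Set.Ioc (0 : ℝ) Real.pi))

/-- The measure `dθ` on `[0, 2π]`. -/
def nuC770 : Measure ℝ := volume.restrict (Set.Ioc (0 : ℝ) (2 * Real.pi))

theorem isFiniteMeasure_nuS770 : IsFiniteMeasure nuS770 := by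
  unfold nuS770
  infer_instance

theorem isFiniteMeasure_nuC770 : IsFiniteMeasure nuC770 := by
  unfold nuC770
  infer_instance

/-- The sphere mean of a bounded continuous function as an integral over `nuS770`. -/
theorem sphereMean_eq770 {Y : ℝ → ℝ → G K} (hY : Continuous fun p : ℝ × ℝ => Y p.1 p.2)
    {χ : G K → ℂ} (hχ : Continuous χ) {C : ℝ} (hC : ∀ g, ‖χ g‖ ≤ C) (g : G K) :
    sphereMean Y χ g = ∫ p, χ (g * Y p.1 p.2) * ((Real.sin p.2 : ℝ) : ℂ) ∂nuS770 := by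
  have hfin := isFiniteMeasure_nuS770
  have hc : Continuous fun p : ℝ × ℝ => χ (g * Y p.1 p.2) * ((Real.sin p.2 : ℝ) : ℂ) :=
    (hχ.comp (continuous_const.mul hY)).mul
      (Complex.continuous_ofReal.comp (Real.continuous_sin.comp continuous_snd))
  have hi : Integrable (fun p : ℝ × ℝ => χ (g * Y p.1 p.2) * ((Real.sin p.2 : ℝ) : ℂ))
      nuS770 := by
    refine Integrable.of_bound hc.aestronglyMeasurable (C * 1)
      (Filter.Eventually.of_forall fun p => ?_)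
    show ‖χ (g * Y p.1 p.2) * ((Real.sin p.2 : ℝ) : ℂ)‖ ≤ _
    rw [norm_mul, Complex.norm_real, Real.norm_eq_abs]
    exact mul_le_mul (hC _) (Real.abs_sin_le_one _) (abs_nonneg _)
      ((norm_nonneg _).trans (hC 1))
  have h2 : (0 : ℝ) ≤ 2 * Real.pi := by positivity
  unfold sphereMean
  rw [intervalIntegral.integral_of_le h2]
  simp only [intervalIntegral.integral_of_le Real.pi_pos.le]
  unfold nuS770 at hi ⊢
  rw [integral_prod _ hi]

/-- The circle mean as an integral over `nuC770`. -/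
theorem circleMean_eq770 (Y : ℝ → G K) (χ : G K → ℂ) (g : G K) :
    circleMean Y χ g = ∫ θ, χ (g * Y θ) * (((1 : ℝ) : ℝ) : ℂ) ∂nuC770 := by
  have h2 : (0 : ℝ) ≤ 2 * Real.pi := by positivity
  unfold circleMean nuC770
  rw [intervalIntegral.integral_of_le h2]
  simp only [Complex.ofReal_one, mul_one]

/-! ## 5. The sub-leaf -/

theorem sphere_adj770 (hT : SubTransl429 K) (hLC : SubLocCont429 K) {𝔫 : Ideal (𝓞 K)}
    (c : Ctx429 K 𝔫) (F : Frame K) {w : InfinitePlace K} (hw : w.IsComplex) {d : ℝ}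
    {Y : ℝ → ℝ → G K} (hY : IsSphereAt w d Y) :
    IsAdj429 𝔫 F (sphereMean Y) (sphereMean Y) := by
  intro φ ψ hφ hψ
  have hYc : Continuous fun p : ℝ × ℝ => Y p.1 p.2 := H546.continuous_sphere_h546 hLC hY
  obtain ⟨Cφ, hCφ⟩ := hφ.bdd
  obtain ⟨Cψ, hCψ⟩ := hψ.bdd
  have hB : BorelSpace (G K) := ⟨rfl⟩
  have hfin := isFiniteMeasure_nuS770
  have hnr : ¬ w.IsReal := InfinitePlace.not_isReal_iff_isComplex.2 hw
  have ha : infComp w (Y 0 0) = torus d := by
    rw [(hY 0 0).2, rotZ_zero770, rotY_zero770, one_mul, one_mul]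
  have hj : infComp w (Y 0 Real.pi) = rotY Real.pi * torus d := by
    rw [(hY 0 Real.pi).2, rotZ_zero770, one_mul]
  have hpt : ∀ p : ℝ × ℝ, ∫ g in F.D, φ (g * Y p.1 p.2) * conj (ψ g) ∂F.μ
      = ∫ g in F.D, φ g * conj (ψ (g * Y p.1 p.2)) ∂F.μ := fun p =>
    pointwise770 hT c.t1 F hφ hψ (unitary_mul770 (rotZ_unitary770 p.1) (rotY_unitary770 p.2))
      (fun h => absurd h hnr) (hY p.1 p.2).1 (hY p.1 p.2).2 (hY 0 0).1 ha (hY 0 Real.pi).1 hj
  have key := mean_adj_abstract770 F.μ F.D F.fin nuS770 hφ.cont hψ.cont hCφ hCψ hYc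
    (s := fun p : ℝ × ℝ => Real.sin p.2) (Real.continuous_sin.comp continuous_snd) (Cs := 1)
    (fun p => Real.abs_sin_le_one _) hpt
  unfold pair
  have e1 : (fun g => sphereMean Y φ g * conj (ψ g))
      = fun g => (∫ p, φ (g * Y p.1 p.2) * ((Real.sin p.2 : ℝ) : ℂ) ∂nuS770) * conj (ψ g) := by
    funext g
    rw [sphereMean_eq770 hYc hφ.cont hCφ g]
  have e2 : (fun g => φ g * conj (sphereMean Y ψ g))
      = fun g => φ g * conj (∫ p, ψ (g * Y p.1 p.2) * ((Real.sin p.2 : ℝ) : ℂ) ∂nuS770) := by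
    funext g
    rw [sphereMean_eq770 hYc hψ.cont hCψ g]
  rw [e1, e2]
  exact key

theorem circle_adj770 (hT : SubTransl429 K) (hLC : SubLocCont429 K) {𝔫 : Ideal (𝓞 K)}
    (c : Ctx429 K 𝔫) (F : Frame K) {w : InfinitePlace K} {t : ℝ}
    {Y : ℝ → G K} (hY : IsCircleAt w t Y) :
    IsAdj429 𝔫 F (circleMean Y) (circleMean Y) := by
  intro φ ψ hφ hψ
  have hYc : Continuous Y := H546.continuous_circle_h546 hLC hY
  obtain ⟨Cφ, hCφ⟩ := hφ.bdd
  obtain ⟨Cψ, hCψ⟩ := hψ.bdd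
  have hB : BorelSpace (G K) := ⟨rfl⟩
  have hfin := isFiniteMeasure_nuC770
  have ha : infComp w (Y 0) = torus t := by
    rw [(hY 0).2, rotY_zero770, one_mul]
  have hpt : ∀ θ : ℝ, ∫ g in F.D, φ (g * Y θ) * conj (ψ g) ∂F.μ
      = ∫ g in F.D, φ g * conj (ψ (g * Y θ)) ∂F.μ := fun θ =>
    pointwise770 hT c.t1 F hφ hψ (rotY_unitary770 θ) (fun _ => rotY_det770 θ)
      (hY θ).1 (hY θ).2 (hY 0).1 ha (hY Real.pi).1 (hY Real.pi).2
  have key := mean_adj_abstract770 F.μ F.D F.fin nuC770 hφ.cont hψ.cont hCφ hCψ hYc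
    (s := fun _ : ℝ => (1 : ℝ)) continuous_const (Cs := 1)
    (fun _ => by rw [abs_one]) hpt
  unfold pair
  have e1 : (fun g => circleMean Y φ g * conj (ψ g))
      = fun g => (∫ θ, φ (g * Y θ) * (((1 : ℝ) : ℝ) : ℂ) ∂nuC770) * conj (ψ g) := by
    funext g
    rw [circleMean_eq770 Y φ g]
  have e2 : (fun g => φ g * conj (circleMean Y ψ g))
      = fun g => φ g * conj (∫ θ, ψ (g * Y θ) * (((1 : ℝ) : ℝ) : ℂ) ∂nuC770) := by
    funext g
    rw [circleMean_eq770 Y ψ g]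
  rw [e1, e2]
  exact key

/-- **T2.07.16 `SubMeanAdj429`** from the KEY LEMMA **T2.07.00** and **T2.07.30**. -/
theorem subMeanAdj_of770 (hT : SubTransl429 K) (hLC : SubLocCont429 K) : SubMeanAdj429 K :=
  fun _ c F =>
    ⟨fun _ hw _ _ _ hY => sphere_adj770 hT hLC c F hw hY,
      fun _ _ _ _ _ hY => circle_adj770 hT hLC c F hY⟩

/-- **T2.07.16 `SubMeanAdj429`** from the KEY LEMMA **T2.07.00** (T2.07.30 is closed by
`subLocCont472` of helper472). -/
theorem subMeanAdj770 (hT : SubTransl429 K) : SubMeanAdj429 K :=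
  subMeanAdj_of770 hT (subLocCont472 K)

end Fermat.Agent.LT.T2.H770

end
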